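import Mathlib.NumberTheory.Padics.PadicNorm
import Mathlib.Tactic

/-!
# Kürschák's theorem

In a block of positive integers exactly one has the largest power of two, so the `2`-adic norm of
the sum of the reciprocals is larger than `1`.
-/

set_option autoImplicit false

open Finset

namespace FA.ConsecutiveIntegers

theorem exists_between_dvd {v a b : ℕ} (hab : a < b) (ha : 2 ^ v ∣ a) (hb : 2 ^ v ∣ b) :
    ∃ c, a ≤ c ∧ c ≤ b ∧ 2 ^ (v + 1) ∣ c := by
  obtain ⟨x, rfl⟩ := ha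
  obtain ⟨y, rfl⟩ := hb
  have hxy : x < y := Nat.lt_of_mul_lt_mul_left hab
  refine ⟨2 ^ v * (2 * ((x + 1) / 2)), Nat.mul_le_mul_left _ (by omega),
    Nat.mul_le_mul_left _ (by omega), ⟨(x + 1) / 2, by ring⟩⟩

theorem kurschak {m n : ℕ} (hm : 0 < m) (hmn : m < n) (z : ℤ) :
    ∑ i ∈ Icc m n, (1 : ℚ) / i ≠ z := by
  have : Fact (Nat.Prime 2) := ⟨Nat.prime_two⟩
  have hne : (Icc m n).Nonempty := nonempty_Icc.2 hmn.le
  obtain ⟨x, hx, hmax⟩ := exists_max_image (Icc m n) (fun i => padicValNat 2 i) hne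
  set v := padicValNat 2 x
  have h0 : ∀ i ∈ Icc m n, i ≠ 0 := fun i hi => by
    have := (mem_Icc.1 hi).1
    omega
  have hle : ∀ i ∈ Icc m n, ∀ w, 2 ^ w ∣ i → w ≤ v := fun i hi w hw =>
    le_trans ((padicValNat_dvd_iff_le (h0 i hi)).1 hw) (hmax i hi)
  have huniq : ∀ i ∈ Icc m n, i ≠ x → padicValNat 2 i < v := by
    intro i hi hix
    refine lt_of_le_of_ne (hmax i hi) fun e => ?_
    have h1 : 2 ^ v ∣ i := e ▸ pow_padicValNat_dvd
    have h2 : 2 ^ v ∣ x := pow_padicValNat_dvd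
    obtain ⟨c, hc1, hc2, hc3⟩ : ∃ c, m ≤ c ∧ c ≤ n ∧ 2 ^ (v + 1) ∣ c := by
      rcases Nat.lt_or_gt_of_ne hix with h | h
      · obtain ⟨c, c1, c2, c3⟩ := exists_between_dvd h h1 h2
        exact ⟨c, (mem_Icc.1 hi).1.trans c1, c2.trans (mem_Icc.1 hx).2, c3⟩
      · obtain ⟨c, c1, c2, c3⟩ := exists_between_dvd h h2 h1
        exact ⟨c, (mem_Icc.1 hx).1.trans c1, c2.trans (mem_Icc.1 hi).2, c3⟩
    have := hle c (mem_Icc.2 ⟨hc1, hc2⟩) _ hc3
    omega
  have hv : 1 ≤ v := by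
    rcases Nat.even_or_odd m with h | h
    · exact hle m (left_mem_Icc.2 hmn.le) 1 (by simpa using h.two_dvd)
    · exact hle (m + 1) (mem_Icc.2 ⟨m.le_succ, hmn⟩) 1
        (by simpa using (h.add_odd odd_one).two_dvd)
  have hnorm : ∀ i ∈ Icc m n, padicNorm 2 ((1 : ℚ) / i) = (2 : ℚ) ^ padicValNat 2 i := by
    intro i hi
    rw [padicNorm.div, padicNorm.one, padicNorm.eq_zpow_of_nonzero (Nat.cast_ne_zero.2 (h0 i hi)),
      padicValRat.of_nat, zpow_neg, one_div, inv_inv, zpow_natCast, Nat.cast_ofNat]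
  intro hsum
  have hrest : padicNorm 2 (∑ i ∈ (Icc m n).erase x, (1 : ℚ) / i) < (2 : ℚ) ^ v := by
    refine padicNorm.sum_lt' (fun i hi => ?_) (by positivity)
    obtain ⟨hix, hi'⟩ := mem_erase.1 hi
    rw [hnorm i hi']
    exact pow_lt_pow_right₀ one_lt_two (huniq i hi' hix)
  have hz := padicNorm.of_int (p := 2) z
  rw [← hsum, ← add_sum_erase _ _ hx,
    padicNorm.add_eq_max_of_ne (by rw [hnorm x hx]; exact hrest.ne'), max_eq_left
      (by rw [hnorm x hx]; exact hrest.le), hnorm x hx] at hz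
  exact absurd hz (not_le.2 (one_lt_pow₀ one_lt_two (by omega)))

end FA.ConsecutiveIntegers
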