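import Mathlib.Data.Nat.Prime.Basic
import Mathlib.Tactic

/-!
# Pillai's theorem on at most sixteen consecutive integers

Only a prime `p` with a second multiple in the block is harmful. The primes up to `7` are settled
by the residue of the block modulo `210`; then `11` and `13` rule out one residue class each.
-/

set_option autoImplicit false

namespace FA.ConsecutiveIntegers

/-- The offset `i` has a partner at distance `p` in a block of length `k`. -/
def harm (p k i : ℕ) : Bool := p.ble i || (i + p).blt k

/-- The offset `i` survives the prime `p` when the block starts at `r` modulo `p`. -/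
def survives (p k r i : ℕ) : Bool := !(((r + i) % p).beq 0 && harm p k i)

/-- The offsets that survive `2`, `3`, `5` and `7`. -/
def survivors (k r : ℕ) : List ℕ :=
  (List.range k).filter fun i =>
    survives 2 k r i && survives 3 k r i && survives 5 k r i && survives 7 k r i

/-- The offsets of a list in the class of `x` modulo `p` where `p` can be harmful. -/
def inClass (p k x i : ℕ) : Bool := (i % p).beq (x % p) && harm p k i

/-- Every offset of the list can be ruled out by one class modulo `p`. -/
def oneClass (p k : ℕ) : List ℕ → Bool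
  | [] => true
  | x :: l => harm p k x && l.all (inClass p k x)

/-- The list can be ruled out by one class modulo `p` and one modulo `q`. -/
def twoClasses (p q k : ℕ) : List ℕ → Bool
  | [] => true
  | x :: l => harm p k x && oneClass q k (l.filter fun i => !inClass p k x i)

/-- The finite check. -/
def check (k : ℕ) : Bool :=
  (List.range 210).all fun r =>
    !(twoClasses 11 13 k (survivors k r) || twoClasses 13 11 k (survivors k r))

theorem check_all : ∀ k < 17, k = 0 ∨ check k = true := by decide +kernel

theorem mem_harm {p k i j : ℕ} (hj : j < k) (hij : i ≠ j) {x : ℕ} (h1 : p ∣ x + i)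
    (h2 : p ∣ x + j) : harm p k i = true := by
  simp only [harm, Bool.or_eq_true, Nat.ble_eq, Nat.blt_eq]
  rcases Nat.lt_or_gt_of_ne hij with h | h
  · have := Nat.dvd_sub h2 h1
    rw [Nat.add_sub_add_left] at this
    have := Nat.le_of_dvd (by omega) this
    omega
  · have := Nat.dvd_sub h1 h2
    rw [Nat.add_sub_add_left] at this
    have := Nat.le_of_dvd (by omega) this
    omega

/-- The offset `i` is ruled out by `p`. -/
def Killed (p k m i : ℕ) : Prop := p ∣ m + i ∧ harm p k i = true

theorem inClass_of_killed {p k m x i : ℕ} (hx : Killed p k m x) (hi : Killed p k m i) :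
    inClass p k x i = true := by
  have h : i % p = x % p :=
    Nat.ModEq.add_left_cancel' m ((Nat.modEq_zero_iff_dvd.2 hi.1).trans
      (Nat.modEq_zero_iff_dvd.2 hx.1).symm)
  simp [inClass, h, hi.2]

theorem survives_eq_false {p k m i : ℕ} (hp : p ∣ 210) (h : Killed p k m i) :
    survives p k (m % 210) i = false := by
  have h0 : (m % 210 + i) % p = 0 := by
    rw [Nat.add_mod, Nat.mod_mod_of_dvd _ hp, ← Nat.add_mod]
    exact Nat.mod_eq_zero_of_dvd h.1
  simp [survives, h0, h.2]

theorem twoClasses_of_killed {p q k m x : ℕ} {l : List ℕ} (hx : Killed p k m x)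
    (hl : ∀ i ∈ l, Killed p k m i ∨ Killed q k m i) : twoClasses p q k (x :: l) = true := by
  simp only [twoClasses, hx.2, Bool.true_and]
  have hrest : ∀ i ∈ l.filter (fun i => !inClass p k x i), Killed q k m i := fun i hi => by
    obtain ⟨hil, hi'⟩ := List.mem_filter.1 hi
    refine (hl i hil).resolve_left fun h => ?_
    simp [inClass_of_killed hx h] at hi'
  generalize l.filter (fun i => !inClass p k x i) = L at hrest ⊢
  rcases L with _ | ⟨y, t⟩
  · rfl
  · simp only [oneClass, Bool.and_eq_true, List.all_eq_true]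
    exact ⟨(hrest y (by simp)).2, fun i hi =>
      inClass_of_killed (hrest y (by simp)) (hrest i (by simp [hi]))⟩

theorem pillai {k : ℕ} (hk0 : 0 < k) (hk : k ≤ 16) (m : ℕ) :
    ∃ i < k, ∀ j < k, j ≠ i → Nat.Coprime (m + i) (m + j) := by
  by_contra hcon
  push Not at hcon
  have hkill : ∀ i < k, ∃ p ∈ [2, 3, 5, 7, 11, 13], Killed p k m i := by
    intro i hi
    obtain ⟨j, hj, hji, hc⟩ := hcon i hi
    obtain ⟨p, hp, h1, h2⟩ := Nat.Prime.not_coprime_iff_dvd.1 hc
    refine ⟨p, ?_, h1, mem_harm hj hji.symm h1 h2⟩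
    have hlt : p < 16 := by
      have := mem_harm hj hji.symm h1 h2
      simp only [harm, Bool.or_eq_true, Nat.ble_eq, Nat.blt_eq] at this
      omega
    interval_cases p <;> first | decide | exact absurd hp (by norm_num)
  have hc := (check_all k (by omega)).resolve_left hk0.ne'
  simp only [check, List.all_eq_true, List.mem_range] at hc
  have hc' := hc (m % 210) (Nat.mod_lt _ (by norm_num))
  simp only [Bool.not_eq_true', Bool.or_eq_false_iff] at hc'
  have hsurv : ∀ i ∈ survivors k (m % 210), Killed 11 k m i ∨ Killed 13 k m i := by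
    intro i hi
    obtain ⟨hik, hs⟩ := List.mem_filter.1 hi
    obtain ⟨p, hp, hd, hh⟩ := hkill i (List.mem_range.1 hik)
    simp only [Bool.and_eq_true] at hs
    simp only [List.mem_cons, List.not_mem_nil, or_false] at hp
    rcases hp with rfl | rfl | rfl | rfl | rfl | rfl
    all_goals first
      | exact Or.inl ⟨hd, hh⟩
      | exact Or.inr ⟨hd, hh⟩
      | (rw [survives_eq_false (by norm_num) ⟨hd, hh⟩] at hs
         simp at hs)
  generalize survivors k (m % 210) = L at hc' hsurv
  rcases L with _ | ⟨x, l⟩
  · simp [twoClasses] at hc'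
  rcases hsurv x (by simp) with hx | hx
  · exact Bool.false_ne_true (hc'.1.symm.trans
      (twoClasses_of_killed hx fun i hi => hsurv i (by simp [hi])))
  · exact Bool.false_ne_true (hc'.2.symm.trans
      (twoClasses_of_killed hx fun i hi => (hsurv i (by simp [hi])).symm))

theorem sharp_check : ∀ i < 17, ∃ j < 17, j ≠ i ∧
    ((2 ∣ 2184 + i ∧ 2 ∣ 2184 + j) ∨ (3 ∣ 2184 + i ∧ 3 ∣ 2184 + j) ∨
      (5 ∣ 2184 + i ∧ 5 ∣ 2184 + j) ∨ (7 ∣ 2184 + i ∧ 7 ∣ 2184 + j) ∨
      (11 ∣ 2184 + i ∧ 11 ∣ 2184 + j) ∨ (13 ∣ 2184 + i ∧ 13 ∣ 2184 + j)) := by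
  decide +kernel

theorem sharp (t i : ℕ) (hi : i < 17) :
    ∃ j < 17, j ≠ i ∧ ¬Nat.Coprime (2184 + 30030 * t + i) (2184 + 30030 * t + j) := by
  obtain ⟨j, hj, hji, h⟩ := sharp_check i hi
  refine ⟨j, hj, hji, fun hc => ?_⟩
  have aux : ∀ p : ℕ, 1 < p → p ∣ 30030 → p ∣ 2184 + i → p ∣ 2184 + j → False := by
    intro p hp h30 h1 h2
    refine hp.ne' (Nat.eq_one_of_dvd_coprimes hc ?_ ?_) <;> rw [add_right_comm]
    · exact h1.add (h30.mul_right t)
    · exact h2.add (h30.mul_right t)
  rcases h with h | h | h | h | h | h <;> exact aux _ (by norm_num) (by norm_num) h.1 h.2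

end FA.ConsecutiveIntegers
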